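import Fermat.Agent.S48.Eis.An
import Fermat.Agent.S48.Eis.Ar.Main

/-! # Module S48-EIS: export -/

set_option autoImplicit false

namespace Fermat.Agent.S48.Eis

/-- **Module S48-EIS**: the Eisenstein series of weight one `≡ 1 mod λ` on `Γ₁(ℓ)`. -/
theorem eisStatement : EisStatement := Ar.eis_of_an anStatement

end Fermat.Agent.S48.Eis
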