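import Fermat.Agent.S48.Eis.Form.GMF
import Fermat.Agent.S48.Eis.Form.Coeff

set_option autoImplicit false

open UpperHalfPlane hiding I
open Complex Real Filter Topology
open scoped MatrixGroups ModularForm Manifold

noncomputable section

namespace Fermat.Agent.S48.Eis

open Classical in
/-- The modular form `G_a = K(a/N; τ) / (-2πi)` (junk value `0` at `a = 0`). -/
def GMF {N : ℕ} [NeZero N] (a : ZMod N) : ModularForm (CongruenceSubgroup.Gamma1 N) 1 :=
  if ha : a ≠ 0 then (-(2 * π * I))⁻¹ • (exists_GMF a ha).choose else 0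

theorem GMF_apply {N : ℕ} [NeZero N] (a : ZMod N) (ha : a ≠ 0) (τ : ℍ) :
    GMF a τ = (-(2 * π * I))⁻¹ * Gv N ![0, (a.val : ℤ)] τ := by
  rw [GMF, dif_pos ha]
  have := (exists_GMF a ha).choose_spec τ
  rw [← this]
  rfl

theorem GMF_coe {N : ℕ} [NeZero N] (a : ZMod N) (ha : a ≠ 0) :
    (GMF a : ℍ → ℂ) = (-(2 * π * I))⁻¹ • Gv N ![0, (a.val : ℤ)] := by
  funext τ
  simp [GMF_apply a ha τ]

/-- **Export of the analytic half** (interface with S48-EIS-AR). -/
theorem anStatement : Ar.AnStatement := by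
  intro N _
  refine ⟨fun a => GMF a, ?_, ?_⟩
  · intro a ha γ hγ
    have hd : a * ((γ 1 1 : ℤ) : ZMod N) ≠ 0 := by
      intro h0
      have hdet := γ.det_coe
      rw [Matrix.det_fin_two] at hdet
      have hc : ((γ 1 0 : ℤ) : ZMod N) = 0 := by
        simpa [CongruenceSubgroup.Gamma0_mem] using hγ
      have h1 : ((γ 0 0 : ℤ) : ZMod N) * ((γ 1 1 : ℤ) : ZMod N) = 1 := by
        have := congrArg (fun t : ℤ => (t : ZMod N)) hdet
        simpa [hc] using this
      apply ha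
      calc a = a * (((γ 0 0 : ℤ) : ZMod N) * ((γ 1 1 : ℤ) : ZMod N)) := by rw [h1, mul_one]
        _ = (a * ((γ 1 1 : ℤ) : ZMod N)) * ((γ 0 0 : ℤ) : ZMod N) := by ring
        _ = 0 := by rw [h0, zero_mul]
    rw [GMF_coe a ha, GMF_coe _ hd, ModularForm.SL_smul_slash, Gv_slash_Gamma0 a ha γ hγ]
  · intro a ha τ
    have h := (Gv_hasSum N (a.val : ℤ) (not_dvd_val a ha) τ).mul_left (-(2 * π * I))⁻¹
    rw [GMF_apply a ha τ]
    refine h.congr_fun (fun n => ?_)
    rw [anCoeff_eq N a ha n, smul_eq_mul, smul_eq_mul, mul_assoc]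

end Fermat.Agent.S48.Eis
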