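import Mathlib
import Fermat.Agent.S48.Iface

/-!
# S48-EIS: the Eisenstein series of weight one on `Γ₁(N)`: definitions

Route (no Hecke trick, no Liouville):

* `wz τ z = ∑_{ω ∈ ℤτ+ℤ} (1/(z+ω) - 1/ω + z/ω²)` is the Weierstrass zeta function (the term `ω = 0`
  is `1/z` because `1/0 = 0` in Lean).  The sum converges absolutely, so it is equivariant under
  `SL₂(ℤ)` by reindexing: `wz (γτ) (z/(cτ+d)) = (cτ+d) wz τ z`.
* `K τ z = wz τ z - z G₂(τ)`; summing first over `n` then over `m` gives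
  `K τ z = lim_N ∑_{|m| ≤ N} π cot (π (z + mτ))`.
* Mathlib's `G2_slash_action` gives `K (γτ) (z/(cτ+d)) = (cτ+d) K τ z + 2πi c z` for ALL `γ`.
* `Gv N a τ = K τ ((a₀τ+a₁)/N) + 2πi a₀/N` satisfies `Gv N a ∣[1] γ = Gv N (a γ)`, depends only on
  `a mod N`, is bounded at `i∞`, and `Gv N (0,a)` has an explicit `q`-expansion.
* `Ech χ = ∑_x χ(x) Gv N (0,x)`.
-/

set_option autoImplicit false

open UpperHalfPlane hiding I
open Complex Real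
open scoped MatrixGroups ModularForm

noncomputable section

namespace Fermat.Agent.S48.Eis

/-- The lattice point `v₀ τ + v₁`. -/
def lp (τ : ℍ) (v : Fin 2 → ℤ) : ℂ := (v 0 : ℂ) * (τ : ℂ) + (v 1 : ℂ)

/-- The summand of the Weierstrass zeta function (for `v = 0` it is `1 / z`). -/
def zTerm (τ : ℍ) (z : ℂ) (v : Fin 2 → ℤ) : ℂ :=
  1 / (z + lp τ v) - 1 / lp τ v + z / lp τ v ^ 2

/-- The Weierstrass zeta function of the lattice `ℤτ + ℤ`. -/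
def wz (τ : ℍ) (z : ℂ) : ℂ := ∑' v : Fin 2 → ℤ, zTerm τ z v

/-- `K τ z = ζ(z; τ) - z G₂(τ)`, the Eisenstein-summed series `∑_m ∑_n 1/(z + mτ + n)`. -/
def K (τ : ℍ) (z : ℂ) : ℂ := wz τ z - z * EisensteinSeries.G2 τ

/-- `z` is not a point of the lattice `ℤτ + ℤ`. -/
def NotLat (τ : ℍ) (z : ℂ) : Prop := ∀ m n : ℤ, z + (m : ℂ) * (τ : ℂ) + (n : ℂ) ≠ 0

/-- The `N`-division point `(a₀ τ + a₁) / N`. -/
def dp (N : ℕ) (a : Fin 2 → ℤ) (τ : ℍ) : ℂ := ((a 0 : ℂ) * (τ : ℂ) + (a 1 : ℂ)) / (N : ℂ)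

/-- The weight one Eisenstein series attached to the division point `(a₀ τ + a₁) / N`. -/
def Gv (N : ℕ) (a : Fin 2 → ℤ) (τ : ℍ) : ℂ :=
  K τ (dp N a τ) + 2 * π * I * (a 0 : ℂ) / (N : ℂ)

/-- `a ≢ 0 mod N`. -/
def NZ (N : ℕ) (a : Fin 2 → ℤ) : Prop := ¬ ((N : ℤ) ∣ a 0 ∧ (N : ℤ) ∣ a 1)

/-- `e^{2πi/N}`. -/
def zetaC (N : ℕ) : ℂ := cexp (2 * π * I / (N : ℂ))

/-- The `q`-expansion coefficients of `Gv N (0, a)`. -/
def cG (N : ℕ) (a : ℤ) (n : ℕ) : ℂ :=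
  if n = 0 then π * I * ((zetaC N ^ a + 1) / (zetaC N ^ a - 1))
  else -(2 * π * I) * ∑ r ∈ n.divisors, (zetaC N ^ (a * r) - zetaC N ^ (-(a * r)))

/-- The weight one Eisenstein series `∑_x χ(x) G_{(0,x)}`. -/
def Ech {N : ℕ} [NeZero N] (χ : DirichletCharacter ℂ N) (τ : ℍ) : ℂ :=
  ∑ x : ZMod N, χ x * Gv N ![0, (x.val : ℤ)] τ

/-- The `q`-expansion coefficients of `Ech χ`. -/
def cE {N : ℕ} [NeZero N] (χ : DirichletCharacter ℂ N) (n : ℕ) : ℂ :=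
  ∑ x : ZMod N, χ x * cG N (x.val : ℤ) n

end Fermat.Agent.S48.Eis
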