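import Fermat.Agent.S48.Eis.Cot.Outer
import Fermat.Agent.S48.Eis.Cot.Bound

set_option autoImplicit false

open UpperHalfPlane hiding I
open Complex Real Filter Topology
open scoped MatrixGroups ModularForm Manifold

noncomputable section

namespace Fermat.Agent.S48.Eis

theorem notLat_add (τ : ℍ) (z : ℂ) (hz : NotLat τ z) (m n : ℤ) :
    NotLat τ (z + m * τ + n) := by
  intro m' n'
  have h := hz (m + m') (n + n')
  intro h0
  apply h
  rw [← h0]
  push_cast
  ring

theorem Period_cot_add_pi (x : ℂ) : cot (x + π) = cot x := by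
  rw [Complex.cot_eq_cos_div_sin, Complex.cot_eq_cos_div_sin, Complex.cos_add_pi,
    Complex.sin_add_pi, neg_div_neg_eq]

theorem Period_notLat_add_one (τ : ℍ) (z : ℂ) (hz : NotLat τ z) : NotLat τ (z + 1) := by
  have h := notLat_add τ z hz 0 1
  have e : z + ((0 : ℤ) : ℂ) * τ + ((1 : ℤ) : ℂ) = z + 1 := by push_cast; ring
  rwa [e] at h

theorem Period_notLat_add_tau (τ : ℍ) (z : ℂ) (hz : NotLat τ z) : NotLat τ (z + τ) := by
  have h := notLat_add τ z hz 1 0
  have e : z + ((1 : ℤ) : ℂ) * τ + ((0 : ℤ) : ℂ) = z + τ := by push_cast; ring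
  rwa [e] at h

theorem Period_sum_shift (f : ℤ → ℂ) (M : ℕ) :
    ∑ m ∈ Finset.Icc (-(M : ℤ)) M, f (m + 1) =
      ∑ m ∈ Finset.Icc (-(M : ℤ)) M, f m + f ((M : ℤ) + 1) - f (-(M : ℤ)) := by
  induction M with
  | zero => simp
  | succ M ih =>
    rw [Nat.cast_add, Nat.cast_one, Finset.sum_Icc_succ_eq_add_endpoints,
      Finset.sum_Icc_succ_eq_add_endpoints, ih]
    have e : -((M : ℤ) + 1) + 1 = -(M : ℤ) := by ring
    rw [e]
    ring

/-- `cot (π (z + 1 + mτ)) = cot (π (z + mτ))` (`Complex.cot` has period `π`), so both sides are the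
limit of the same sequence (`tendsto_K`, `tendsto_nhds_unique`). -/
theorem K_add_one (τ : ℍ) (z : ℂ) (hz : NotLat τ z) : K τ (z + 1) = K τ z := by
  have h1 := tendsto_K τ (z + 1) (Period_notLat_add_one τ z hz)
  have h2 := tendsto_K τ z hz
  refine tendsto_nhds_unique h1 (h2.congr fun M => ?_)
  refine Finset.sum_congr rfl fun m _ => ?_
  rw [show (π : ℂ) * (z + 1 + m * τ) = π * (z + m * τ) + π by ring, Period_cot_add_pi]

/-- `∑_{|m| ≤ M} π cot (π (z + τ + mτ)) = ∑_{|m| ≤ M} π cot (π (z + mτ)) + π cot (π (z + (M+1) τ))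
- π cot (π (z - M τ))`, and the last two terms tend to `-πi` and `-πi`
(`tendsto_cot_add`, `tendsto_cot_sub`). -/
theorem K_add_tau (τ : ℍ) (z : ℂ) (hz : NotLat τ z) : K τ (z + τ) = K τ z - 2 * π * I := by
  have h1 := tendsto_K τ (z + τ) (Period_notLat_add_tau τ z hz)
  have h2 := tendsto_K τ z hz
  have h3 : Tendsto (fun M : ℕ => (π : ℂ) * cot (π * (z + ((M : ℤ) + 1 : ℤ) * τ))) atTop
      (𝓝 (π * (-I))) := by
    have := ((tendsto_cot_add τ z).comp (tendsto_add_atTop_nat 1)).const_mul (π : ℂ)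
    refine this.congr fun M => ?_
    simp only [Function.comp_apply]
    push_cast
    rfl
  have h4 : Tendsto (fun M : ℕ => (π : ℂ) * cot (π * (z + ((-(M : ℤ) : ℤ) : ℂ) * τ))) atTop
      (𝓝 (π * I)) := by
    refine ((tendsto_cot_sub τ z).const_mul (π : ℂ)).congr fun M => ?_
    rw [show z - (M : ℂ) * τ = z + ((-(M : ℤ) : ℤ) : ℂ) * τ by push_cast; ring]
  have h5 := (h2.add h3).sub h4
  have e : K τ z + π * (-I) - π * I = K τ z - 2 * π * I := by ring
  rw [e] at h5
  refine tendsto_nhds_unique h1 (h5.congr fun M => ?_)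
  rw [← Period_sum_shift (fun m : ℤ => (π : ℂ) * cot (π * (z + (m : ℂ) * τ))) M]
  refine Finset.sum_congr rfl fun m _ => ?_
  rw [show z + τ + (m : ℂ) * τ = z + ((m + 1 : ℤ) : ℂ) * τ by push_cast; ring]

/-- Induction on `m` and `n` (`Int.induction_on`), using `notLat_add`. -/
theorem K_add_lat (τ : ℍ) (z : ℂ) (hz : NotLat τ z) (m n : ℤ) :
    K τ (z + m * τ + n) = K τ z - 2 * π * I * m := by
  have hn : ∀ (w : ℂ), NotLat τ w → ∀ n : ℤ, K τ (w + n) = K τ w := by
    intro w hw n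
    have hw' : ∀ j : ℤ, NotLat τ (w + j) := by
      intro j
      have h := notLat_add τ w hw 0 j
      have e : w + ((0 : ℤ) : ℂ) * τ + (j : ℂ) = w + j := by push_cast; ring
      rwa [e] at h
    induction n using Int.induction_on with
    | zero => simp
    | succ i ih =>
      rw [show w + (((i : ℤ) + 1 : ℤ) : ℂ) = w + ((i : ℤ) : ℂ) + 1 by push_cast; ring,
        K_add_one τ _ (hw' i), ih]
    | pred i ih =>
      have h := K_add_one τ _ (hw' (-(i : ℤ) - 1))
      rw [show w + ((-(i : ℤ) - 1 : ℤ) : ℂ) + 1 = w + ((-(i : ℤ) : ℤ) : ℂ) by push_cast; ring,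
        ih] at h
      exact h.symm
  have hm : ∀ m : ℤ, K τ (z + m * τ) = K τ z - 2 * π * I * m := by
    intro m
    have hz' : ∀ j : ℤ, NotLat τ (z + j * τ) := by
      intro j
      have h := notLat_add τ z hz j 0
      have e : z + (j : ℂ) * τ + ((0 : ℤ) : ℂ) = z + j * τ := by push_cast; ring
      rwa [e] at h
    induction m using Int.induction_on with
    | zero => simp
    | succ i ih =>
      rw [show z + (((i : ℤ) + 1 : ℤ) : ℂ) * τ = z + ((i : ℤ) : ℂ) * τ + τ by push_cast; ring,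
        K_add_tau τ _ (hz' i), ih]
      push_cast
      ring
    | pred i ih =>
      have h := K_add_tau τ _ (hz' (-(i : ℤ) - 1))
      rw [show z + ((-(i : ℤ) - 1 : ℤ) : ℂ) * τ + τ = z + ((-(i : ℤ) : ℤ) : ℂ) * τ by
        push_cast; ring, ih] at h
      have h' : K τ (z + ((-(i : ℤ) - 1 : ℤ) : ℂ) * τ) =
          K τ z - 2 * π * I * ((-(i : ℤ) : ℤ) : ℂ) + 2 * π * I := by
        rw [h]; ring
      rw [h']
      push_cast
      ring
  have hz' : NotLat τ (z + m * τ) := by
    have h := notLat_add τ z hz m 0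
    have e : z + (m : ℂ) * τ + ((0 : ℤ) : ℂ) = z + m * τ := by push_cast; ring
    rwa [e] at h
  rw [hn _ hz' n, hm m]

end Fermat.Agent.S48.Eis
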